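/-
GATE-B / B5 (helper8): `B5PointPlug.exists_isNewform_factorization_two_of_eigenclass` with the
hypothesis `chainD φ ≠ 0` replaced by `φ ≠ 0` (helper97 `ChainInj.chainD_injective`): all twisting
primes exactly divide `N`, all twisting characters have `ψ² ≠ 1`.
-/
import Mathlib
import Fermat.Agent.GE8.P3B.GB.B5.Depl.B5PointPlug
import Fermat.Agent.GB.B4.Twist.ChainInj
import Fermat.Agent.GE8.P3B.StepGen
import Fermat.Agent.GE8.P3B.Ok3W

/- TWIN (helper6 B4 generator; conventions of helper24 / helper86) of `Fermat.Agent.GB.B5.Depl.B5PointInj` with `p ≠ 3` relaxed to `Ok3A Sy 𝔪 p` / `Ok3W p W` (RISK-5 fix (B), step B4); everything below lives in the wrapper namespace `Fermat.Agent.GE8.P3B`. -/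
set_option linter.dupNamespace false
open Fermat Fermat.Agent Fermat.Agent.GB Fermat.Agent.GB.B3 Fermat.Agent.GB.B3.EisGamma0 Fermat.Agent.GB.B3.GamH Fermat.Agent.GB.B4 Fermat.Agent.GB.B4.Twist Fermat.Agent.GB.B4.Twist.Chain Fermat.Agent.GB.B4.Twist.ChainD Fermat.Agent.GB.B4.Twist.ChainInj Fermat.Agent.GB.B4.Twist.RPsi Fermat.Agent.GB.B5 Fermat.Agent.GB.B5.Betti Fermat.Agent.GB.B5.Depl Fermat.Agent.GM Fermat.Agent.GM.B

namespace Fermat.Agent.GE8.P3B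

set_option autoImplicit false

open scoped MatrixGroups
open CongruenceSubgroup Matrix Matrix.SpecialLinearGroup ModularCurve ModularCurve.Period
open GM.B
open GB.B3 GB.B3.EisGamma0 GB.B3.GamH
open GB.B4.Twist GB.B4.Twist.RPsi GB.B4.Twist.Chain
open GB.B4.Twist.ChainD GB.B4.Twist.ChainInj
open GB.B5.Betti
open ModularFormClass CuspForm

namespace GB.B5.Depl

section Aux

/-- a character with `ψ² ≠ 1` has a unit `v` with `ψ(v)² ≠ 1` -/
theorem exists_unit_sq_ne_one {r : ℕ} (ψ : MulChar (ZMod r) ℂ) (h : ψ ^ 2 ≠ 1) :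
    ∃ v : (ZMod r)ˣ, ψ (v : ZMod r) ^ 2 ≠ 1 := by
  obtain ⟨v, hv⟩ := (MulChar.ne_one_iff (χ := ψ ^ 2)).mp h
  refine ⟨v, ?_⟩
  rwa [MulChar.pow_apply_coe] at hv

/-- a character with `ψ² ≠ 1` sums to zero -/
theorem sum_eq_zero_of_sq_ne_one {r : ℕ} [Fact r.Prime] (ψ : MulChar (ZMod r) ℂ) (h : ψ ^ 2 ≠ 1) :
    ∑ x : ZMod r, ψ x = 0 := by
  refine MulChar.sum_eq_zero_of_ne_one ?_
  rintro rfl
  exact h (one_pow 2)

end Aux

section Main

variable {Δ : Type} [CommGroup Δ] [Fintype Δ]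

/-- **B5 from a non-zero eigenclass on `Γ_H(N)`** (multi-prime chain form, the B5 prime last). -/
theorem exists_isNewform_factorization_two_of_eigenclass_ne_zero {N : ℕ} [NeZero N]
    (θ : (ZMod N)ˣ →* Δ) (L' : List (TwDatum ℂ Δ)) (d : TwDatum ℂ Δ)
    (h : Adm N θ (L' ++ [d])) [NeZero (chainLevel N (L' ++ [d]))]
    (hsq : ∀ e ∈ L' ++ [d], ¬ e.r ^ 2 ∣ N)
    (hL : (L' ++ [d]).Pairwise (fun d e => Nat.Coprime d.r e.r))
    (hψsq : ∀ e ∈ L' ++ [d], e.ψ ^ 2 ≠ 1)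
    (hθ : InvStableG (N / d.r) d.r θ)
    (rep : Δ → Gamma0 (chainLevel N (L' ++ [d])))
    (hrep : ∀ δ, chi (chainθ N θ (L' ++ [d])) (rep δ) = δ)
    (φ : Additive (GammaH θ) →+ ℂ) (hφpar : IsParabolicHom (GammaH θ) φ)
    (hφ : ∀ (x : Gamma0 N) (k : GammaH θ),
      φ (Additive.ofMul (conjK (chi θ) x k))
        = (((((L' ++ [d]).map (fun d => d.ν)).prod (chi θ x) : ℂˣ)) : ℂ) • φ (Additive.ofMul k))
    (hφ0 : φ ≠ 0) (μ : ℕ → ℂ)
    (hT : ∀ (ℓ : ℕ) [Fact ℓ.Prime] (hℓ : ¬ ℓ ∣ N), TH θ ℂ hℓ φ = μ ℓ • φ)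
    (hU : ∀ (q : ℕ) [NeZero q] (hqN : q ∣ N), q.Prime → (∀ e ∈ L' ++ [d], e.r ≠ q) →
      UH θ ℂ hqN φ = μ q • φ)
    (a : ℂ)
    (ha : UH θ ℂ (h d (List.mem_append_right _ (List.mem_singleton_self d))).1 φ = a • φ) :
    ∃ M : ℕ, M ∣ chainLevel N (L' ++ [d]) ∧ ∃ g : CuspForm (Gamma0 M) 2, g.IsNewform ∧
      (∀ ℓ : ℕ, ℓ.Prime → ¬ ℓ ∣ chainLevel N (L' ++ [d]) →
        chainPsi (L' ++ [d]) ℓ * qCoeff g ℓ = μ ℓ) ∧
      M.factorization d.r = 2 := by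
  have hdL : d ∈ L' ++ [d] := List.mem_append_right _ (List.mem_singleton_self d)
  have hnd : (L' ++ [d]).Pairwise (fun d e => d.r ≠ e.r) := by
    refine hL.imp ?_
    intro e f hef hr
    rw [hr, Nat.coprime_self] at hef
    exact (Fact.out : f.r.Prime).one_lt.ne' hef
  have hX0 : chainD N θ (L' ++ [d]) h rep hrep φ ≠ 0 := by
    intro h0
    refine hφ0 (chainD_injective N θ (L' ++ [d]) h rep hrep hsq hnd
      (fun e he => Or.inr (exists_unit_sq_ne_one e.ψ (hψsq e he))) ?_ ?_ φ hφ h0)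
    · intro n x hn hx
      rw [nsmul_eq_mul, mul_eq_zero] at hx
      rcases hx with hx | hx
      · exact absurd (Nat.cast_eq_zero.mp hx) hn
      · exact hx
    · intro c x hc hx
      rw [smul_eq_mul, mul_eq_zero] at hx
      rcases hx with hx | hx
      · exact absurd hx hc
      · exact hx
  exact exists_isNewform_factorization_two_of_eigenclass θ L' d h (hsq d hdL) hL
    (fun e he => sum_eq_zero_of_sq_ne_one e.ψ (hψsq e he)) hθ (hψsq d hdL) rep hrep φ hφpar hφ hX0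
    μ hT hU a ha

end Main

end GB.B5.Depl

end Fermat.Agent.GE8.P3B
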