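/-
GATE-B / B5 (helper8): **from an eigenclass on `Γ_H(N)` with non-trivial nebentypus at `r₀` to the
newform with `r₀`-exponent `2`**, in the variable block of helper44's `TwFinal` at `O := ℂ`.

`θ : (ZMod N)ˣ →* Δ` surjective, `|Δ|` odd, `L` a list of distinct primes `r ∥ N`, `θ` the product of
the local characters `θloc r` (helper10 `L6Loc`).  `φ ∈ Hom_par(Γ_H(N), ℂ)`, `φ ≠ 0`, an eigenvector
of the diamonds with character `ε : Δ →* ℂˣ`, of all `T_ℓ` and of all `U_q`; `r₀ ∈ L` with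
`ε ∘ θloc r₀ ≠ 1`.  The twisting list is `M := ((L.filter (ε ∘ θloc r ≠ 1)).erase r₀) ++ [r₀]`
(the primes with TRIVIAL local nebentypus are left out, the B5 prime comes last), with helper10's
data `datum θloc pr ε r` (`ψ_r = √ε ∘ θloc r`, `ν_r = ε ∘ pr r`).  Then `B5PointInj` applies:
there is a newform `g` of level `M' ∣ N * L.prod` with `M'.factorization r₀ = 2` and
`√ε(θ ℓ) a_ℓ(g) = μ_ℓ`; equivalently `a_ℓ(g)` is the eigenvalue of `⟨ℓ⟩^{-1/2} T_ℓ` on `φ`.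
-/
import Mathlib
import Fermat.Agent.GE8.P3B.GB.B5.Depl.B5PointInj
import Fermat.Agent.GB.B5.Depl.B5Loc
import Fermat.Agent.GB.B4.Twist.L6Loc
import Fermat.Agent.GE8.P3B.StepGen
import Fermat.Agent.GE8.P3B.Ok3W

/- TWIN (helper6 B4 generator; conventions of helper24 / helper86) of `Fermat.Agent.GB.B5.Depl.B5Neben` with `p ≠ 3` relaxed to `Ok3A Sy 𝔪 p` / `Ok3W p W` (RISK-5 fix (B), step B4); everything below lives in the wrapper namespace `Fermat.Agent.GE8.P3B`. -/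
set_option linter.dupNamespace false
open Fermat Fermat.Agent Fermat.Agent.GB Fermat.Agent.GB.B3 Fermat.Agent.GB.B3.EisGamma0 Fermat.Agent.GB.B3.GamH Fermat.Agent.GB.B4 Fermat.Agent.GB.B4.Twist Fermat.Agent.GB.B4.Twist.Chain Fermat.Agent.GB.B4.Twist.ChainD Fermat.Agent.GB.B4.Twist.ChainInj Fermat.Agent.GB.B4.Twist.L6Loc Fermat.Agent.GB.B4.Twist.RPsi Fermat.Agent.GB.B5 Fermat.Agent.GB.B5.Betti Fermat.Agent.GB.B5.Depl Fermat.Agent.GM Fermat.Agent.GM.B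

namespace Fermat.Agent.GE8.P3B

set_option autoImplicit false

open scoped MatrixGroups
open CongruenceSubgroup Matrix Matrix.SpecialLinearGroup ModularCurve ModularCurve.Period
open GM.B
open GB.B3 GB.B3.EisGamma0 GB.B3.GamH
open GB.B4.Twist GB.B4.Twist.RPsi GB.B4.Twist.Chain
open GB.B4.Twist.ChainD GB.B4.Twist.ChainInj
open GB.B4.Twist.L6Loc
open GB.B5.Betti
open ModularFormClass CuspForm

namespace GB.B5.Depl

/-! ### lists -/

section Lists

/-- the factors equal to `1` may be filtered out of a list product -/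
theorem prod_map_filter_of_one {α G : Type*} [Monoid G] (l : List α) (P : α → Prop)
    [DecidablePred P] (f : α → G) (h : ∀ a ∈ l, ¬ P a → f a = 1) :
    ((l.filter (fun a => decide (P a))).map f).prod = (l.map f).prod := by
  induction l with
  | nil => rfl
  | cons a l ih =>
    have ih' := ih (fun b hb => h b (List.mem_cons_of_mem a hb))
    by_cases hP : P a
    · rw [List.filter_cons_of_pos (by simpa using hP), List.map_cons, List.prod_cons, ih',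
        List.map_cons, List.prod_cons]
    · rw [List.filter_cons_of_neg (by simpa using hP), ih', List.map_cons, List.prod_cons,
        h a (List.mem_cons_self ..) hP, one_mul]

/-- moving an element of a list to the end -/
theorem perm_erase_append_single {α : Type*} [DecidableEq α] {l : List α} {a : α} (h : a ∈ l) :
    (l.erase a ++ [a]).Perm l :=
  (List.perm_append_singleton a (l.erase a)).trans (List.perm_cons_erase h).symm

end Lists

/-! ### helper10's data on a sub-list -/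

section Data

variable {Δ : Type} [CommGroup Δ]
  (θloc : (r : ℕ) → (ZMod r)ˣ →* Δ) (pr : ℕ → Δ →* Δ) (ε : Δ →* ℂˣ)

theorem datumList_append_single (M₀ : List ℕ) (r₀ : ℕ) (hM : ∀ r ∈ M₀ ++ [r₀], r.Prime) :
    datumList θloc pr ε (M₀ ++ [r₀]) hM
      = datumList θloc pr ε M₀ (fun r hr => hM r (List.mem_append_left _ hr))
        ++ [datum θloc pr ε r₀ (hM r₀ (List.mem_append_right _ (List.mem_singleton_self r₀)))] := by
  unfold datumList
  rw [List.pmap_append]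
  rfl

/-- `∏ ν_r` at `x`, for ANY list of primes -/
theorem prod_ν_datumList_apply (M : List ℕ) (hM : ∀ r ∈ M, r.Prime) (x : Δ) :
    ((datumList θloc pr ε M hM).map (fun d => d.ν)).prod x
      = (M.map fun r => ε (pr r x)).prod := by
  induction M with
  | nil => simp
  | cons r M ih =>
    rw [datumList_cons, List.map_cons, List.prod_cons, MonoidHom.mul_apply, ih,
      List.map_cons, List.prod_cons]
    rfl

variable {N : ℕ} (θ : (ZMod N)ˣ →* Δ)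

/-- `∏ ψ_r(ℓ)`, for ANY list of primes dividing `N` -/
theorem chainPsi_datumList (M : List ℕ) (hM : ∀ r ∈ M, r.Prime) (hdvd : ∀ r ∈ M, r ∣ N)
    (hpr : ∀ r ∈ M, ∀ (h : r ∣ N) (u : (ZMod N)ˣ), pr r (θ u) = θloc r (ZMod.unitsMap h u))
    (ℓ : ℕ) (u : (ZMod N)ˣ) (hu : (u : ZMod N) = (ℓ : ZMod N)) :
    chainPsi (datumList θloc pr ε M hM) ℓ
      = (((M.map fun r => sqrtChar ε (pr r (θ u))).prod : ℂˣ) : ℂ) := by
  induction M with
  | nil => simp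
  | cons r M ih =>
    have hrN : r ∣ N := hdvd r (List.mem_cons_self ..)
    rw [datumList_cons, chainPsi_cons,
      ih _ (fun s hs => hdvd s (List.mem_cons_of_mem r hs))
        (fun s hs => hpr s (List.mem_cons_of_mem r hs)),
      List.map_cons, List.prod_cons, Units.val_mul]
    congr 1
    have h1 : ((ℓ : ℕ) : ZMod r) = ((ZMod.unitsMap hrN u : (ZMod r)ˣ) : ZMod r) := by
      rw [← cast_unit_eq hrN u, hu, ZMod.cast_natCast hrN]
    show (datum θloc pr ε r (hM r (List.mem_cons_self ..))).ψ ((ℓ : ℕ) : ZMod r) = _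
    rw [h1, datum_ψ_coe, hpr r (List.mem_cons_self ..) hrN u]

/-- a product over a sub-list carrying all the non-trivial factors -/
theorem prod_sub_eq (L M : List ℕ) (P : ℕ → Prop) [DecidablePred P]
    (hperm : M.Perm (L.filter (fun r => decide (P r))))
    (hprod : ∀ u : (ZMod N)ˣ, θ u = (L.map fun r => pr r (θ u)).prod)
    (η : Δ →* ℂˣ) (u : (ZMod N)ˣ) (h1 : ∀ r ∈ L, ¬ P r → η (pr r (θ u)) = 1) :
    (M.map fun r => η (pr r (θ u))).prod = η (θ u) := by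
  rw [(hperm.map _).prod_eq, prod_map_filter_of_one L P _ h1]
  conv_rhs => rw [hprod u, map_list_prod, List.map_map]
  rfl

end Data

/-! ### the main theorem -/

section Main

variable {N : ℕ} [NeZero N] {Δ : Type} [CommGroup Δ] [Fintype Δ]

/-- **B5 in `TwFinal`'s variable block**: an eigenclass with non-trivial nebentypus at `r₀`. -/
theorem exists_isNewform_factorization_two_of_neben
    (θ : (ZMod N)ˣ →* Δ) (hθ : Function.Surjective θ) (hodd : Odd (Nat.card Δ))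
    (L : List ℕ) (hL : ∀ r ∈ L, r.Prime) (hnd : L.Nodup)
    (hdvd : ∀ r ∈ L, r ∣ N) (hsq : ∀ r ∈ L, ¬ r ^ 2 ∣ N)
    (θloc : (r : ℕ) → (ZMod r)ˣ →* Δ) (pr : ℕ → Δ →* Δ)
    (hpr : ∀ r ∈ L, ∀ (h : r ∣ N) (u : (ZMod N)ˣ), pr r (θ u) = θloc r (ZMod.unitsMap h u))
    (hprod : ∀ u : (ZMod N)ˣ, θ u = (L.map fun r => pr r (θ u)).prod)
    (ε : Δ →* ℂˣ) (r₀ : ℕ) (hr₀ : r₀ ∈ L) (hε₀ : ε.comp (θloc r₀) ≠ 1)
    (φ : Additive (GammaH θ) →+ ℂ) (hφpar : IsParabolicHom (GammaH θ) φ) (hφ0 : φ ≠ 0)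
    (hdia : ∀ d : Gamma0 N, diaH θ ℂ d φ = ((ε (chi θ d) : ℂˣ) : ℂ) • φ)
    (μ : ℕ → ℂ)
    (hT : ∀ (ℓ : ℕ) [Fact ℓ.Prime] (hℓ : ¬ ℓ ∣ N), TH θ ℂ hℓ φ = μ ℓ • φ)
    (hU : ∀ (q : ℕ) [NeZero q] (hqN : q ∣ N), q.Prime → UH θ ℂ hqN φ = μ q • φ) :
    ∃ M : ℕ, M ∣ N * L.prod ∧ ∃ g : CuspForm (Gamma0 M) 2, g.IsNewform ∧
      (∀ ℓ : ℕ, ℓ.Prime → ¬ ℓ ∣ N * L.prod → ∀ u : (ZMod N)ˣ, (u : ZMod N) = (ℓ : ZMod N) →
        ((sqrtChar ε (θ u) : ℂˣ) : ℂ) * qCoeff g ℓ = μ ℓ) ∧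
      M.factorization r₀ = 2 := by
  classical
  -- the sub-list
  have hr₀P : r₀ ∈ L.filter (fun r => decide (ε.comp (θloc r) ≠ 1)) := by
    rw [List.mem_filter]
    exact ⟨hr₀, by simpa using hε₀⟩
  have hperm := perm_erase_append_single hr₀P
  have hmem : ∀ r, r ∈ (L.filter (fun r => decide (ε.comp (θloc r) ≠ 1))).erase r₀ ++ [r₀] →
      r ∈ L ∧ ε.comp (θloc r) ≠ 1 := by
    intro r hr
    have h1 := hperm.mem_iff.mp hr
    rw [List.mem_filter] at h1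
    exact ⟨h1.1, by simpa using h1.2⟩
  have hMprime : ∀ r ∈ (L.filter (fun r => decide (ε.comp (θloc r) ≠ 1))).erase r₀ ++ [r₀],
      r.Prime := fun r hr => hL r (hmem r hr).1
  have hMnd : ((L.filter (fun r => decide (ε.comp (θloc r) ≠ 1))).erase r₀ ++ [r₀]).Nodup :=
    hperm.nodup_iff.mpr (hnd.filter _)
  have hMdvd : ∀ r ∈ (L.filter (fun r => decide (ε.comp (θloc r) ≠ 1))).erase r₀ ++ [r₀],
      r ∣ N := fun r hr => hdvd r (hmem r hr).1
  have hMpr : ∀ r ∈ (L.filter (fun r => decide (ε.comp (θloc r) ≠ 1))).erase r₀ ++ [r₀],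
      ∀ (h : r ∣ N) (u : (ZMod N)ˣ), pr r (θ u) = θloc r (ZMod.unitsMap h u) :=
    fun r hr => hpr r (hmem r hr).1
  have hMprod : ((L.filter (fun r => decide (ε.comp (θloc r) ≠ 1))).erase r₀ ++ [r₀]).prod
      ∣ L.prod := by
    rw [hperm.prod_eq]
    exact (List.filter_sublist (l := L)).prod_dvd_prod
  have hlist := datumList_append_single θloc pr ε
    ((L.filter (fun r => decide (ε.comp (θloc r) ≠ 1))).erase r₀) r₀ hMprime
  generalize hM₀ : (L.filter (fun r => decide (ε.comp (θloc r) ≠ 1))).erase r₀ = M₀ at *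
  -- the trivial factors
  have htriv : ∀ (k : ℕ) (u : (ZMod N)ˣ), ∀ r ∈ L, ¬ (ε.comp (θloc r) ≠ 1) →
      (ε ^ k) (pr r (θ u)) = 1 := by
    intro k u r hr hP
    rw [not_not] at hP
    rw [hpr r hr (hdvd r hr) u, MonoidHom.pow_apply]
    have h1 := DFunLike.congr_fun hP (ZMod.unitsMap (hdvd r hr) u)
    rw [MonoidHom.comp_apply, MonoidHom.one_apply] at h1
    rw [h1, one_pow]
  have hεprod : ∀ u : (ZMod N)ˣ, ((M₀ ++ [r₀]).map fun r => ε (pr r (θ u))).prod = ε (θ u) := by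
    intro u
    refine prod_sub_eq pr θ L (M₀ ++ [r₀]) (fun r => ε.comp (θloc r) ≠ 1) hperm hprod ε u ?_
    intro r hr hP
    have := htriv 1 u r hr hP
    rwa [MonoidHom.pow_apply, pow_one] at this
  have hsqrtprod : ∀ u : (ZMod N)ˣ,
      ((M₀ ++ [r₀]).map fun r => sqrtChar ε (pr r (θ u))).prod = sqrtChar ε (θ u) := by
    intro u
    refine prod_sub_eq pr θ L (M₀ ++ [r₀]) (fun r => ε.comp (θloc r) ≠ 1) hperm hprod
      (sqrtChar ε) u ?_
    intro r hr hP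
    exact htriv _ u r hr hP
  -- the twisting data
  set L' : List (TwDatum ℂ Δ) := datumList θloc pr ε M₀
    (fun r hr => hMprime r (List.mem_append_left _ hr)) with hL'
  set d : TwDatum ℂ Δ := datum θloc pr ε r₀
    (hMprime r₀ (List.mem_append_right _ (List.mem_singleton_self r₀))) with hd
  have hadm : Adm N θ (L' ++ [d]) := by
    rw [← hlist]
    exact adm θloc pr ε θ hodd _ hMprime hMdvd hMpr
  have hlev : chainLevel N (L' ++ [d]) = N * (M₀ ++ [r₀]).prod := by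
    rw [← hlist, chainLevel_datumList]
  have hlev0 : chainLevel N (L' ++ [d]) ≠ 0 := by
    rw [hlev]
    refine Nat.mul_ne_zero (NeZero.ne N) (List.prod_ne_zero ?_)
    intro h0
    exact (hMprime 0 h0).ne_zero rfl
  haveI : NeZero (chainLevel N (L' ++ [d])) := ⟨hlev0⟩
  have hrmem : ∀ e ∈ L' ++ [d], e.r ∈ M₀ ++ [r₀] := by
    intro e he
    rw [← hlist] at he
    exact r_mem_of_mem_datumList θloc pr ε he
  have hsq' : ∀ e ∈ L' ++ [d], ¬ e.r ^ 2 ∣ N := fun e he => hsq _ (hmem _ (hrmem e he)).1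
  have hLcop : (L' ++ [d]).Pairwise (fun d e => Nat.Coprime d.r e.r) := by
    have h1 : (M₀ ++ [r₀]).Pairwise Nat.Coprime := by
      refine List.Pairwise.imp_of_mem ?_ hMnd
      intro a b ha hb hab
      exact (Nat.coprime_primes (hMprime a ha) (hMprime b hb)).mpr hab
    rw [← map_r_datumList θloc pr ε (M₀ ++ [r₀]) hMprime, hlist] at h1
    exact List.pairwise_map.mp h1
  have hψsq : ∀ e ∈ L' ++ [d], e.ψ ^ 2 ≠ 1 := by
    intro e he
    rw [← hlist] at he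
    obtain ⟨r, hr, rfl⟩ := (mem_datumList θloc pr ε).1 he
    intro h1
    apply (hmem r hr).2
    refine MonoidHom.ext fun v => ?_
    rw [MonoidHom.comp_apply, MonoidHom.one_apply]
    have h2 : ((datum θloc pr ε r (hMprime r hr)).ψ ^ 2) ((v : ZMod r) :
        ZMod (datum θloc pr ε r (hMprime r hr)).r) = 1 := by
      rw [h1]
      exact MulChar.one_apply_coe v
    have h3 : (datum θloc pr ε r (hMprime r hr)).ψ ((v : ZMod r) :
        ZMod (datum θloc pr ε r (hMprime r hr)).r) ^ 2 = 1 := by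
      rw [← h2]
      exact (MulChar.pow_apply_coe _ 2 v).symm
    rw [datum_ψ_coe, ← Units.val_pow_eq_pow_val, sqrtChar_sq_apply hodd] at h3
    exact Units.ext h3
  have hθ' : InvStableG (N / d.r) d.r θ :=
    invStableG_of_loc θ L hL hdvd θloc pr hpr hprod r₀ hr₀
  -- a section
  have hsurj : Function.Surjective (chainθ N θ (L' ++ [d])) := by
    rw [chainθ_eq]
    exact hθ.comp (ZMod.unitsMap_surjective (dvd_chainLevel N (L' ++ [d])))
  obtain ⟨rep, hrep⟩ := exists_rep (chainθ N θ (L' ++ [d])) hsurj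
  -- the conjugation rule
  have hφc : ∀ (x : Gamma0 N) (k : GammaH θ),
      φ (Additive.ofMul (conjK (chi θ) x k))
        = (((((L' ++ [d]).map (fun d => d.ν)).prod (chi θ x) : ℂˣ)) : ℂ)
          • φ (Additive.ofMul k) := by
    intro x k
    have h1 := (conjEigen_iff_diaH θ (fun t => ((ε t : ℂˣ) : ℂ)) φ).mpr hdia x k
    rw [h1, ← hlist, prod_ν_datumList_apply, chi_apply, hεprod]
  have hr₀p : r₀.Prime := hL r₀ hr₀
  haveI : NeZero r₀ := ⟨hr₀p.ne_zero⟩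
  obtain ⟨M, hM, g, hg, hgood, hfac⟩ :=
    exists_isNewform_factorization_two_of_eigenclass_ne_zero θ L' d hadm hsq' hLcop hψsq hθ'
      rep hrep φ hφpar hφc hφ0 μ hT (fun q _ hqN hq _ => hU q hqN hq) (μ r₀)
      (hU r₀ (hdvd r₀ hr₀) hr₀p)
  refine ⟨M, ?_, g, hg, ?_, hfac⟩
  · rw [hlev] at hM
    exact hM.trans (Nat.mul_dvd_mul_left N hMprod)
  · intro ℓ hℓ hℓN u hu
    have h1 : ¬ ℓ ∣ chainLevel N (L' ++ [d]) := by
      rw [hlev]
      exact fun h => hℓN (h.trans (Nat.mul_dvd_mul_left N hMprod))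
    have h2 := hgood ℓ hℓ h1
    rw [← hlist, chainPsi_datumList θloc pr ε θ _ hMprime hMdvd hMpr ℓ u hu, hsqrtprod] at h2
    exact h2

end Main

/-! ### the diamond eigencharacter, the eigenvalue function -/

section Wrap

variable {N : ℕ} [NeZero N] {Δ : Type} [CommGroup Δ] [Fintype Δ]

/-- scalars are determined by their action on a non-zero class -/
theorem eq_of_smul_eq_smul_of_ne_zero {Γ : Type*} [Group Γ] {φ : Additive Γ →+ ℂ} (hφ0 : φ ≠ 0)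
    {a b : ℂ} (h : a • φ = b • φ) : a = b := by
  have hk : ∃ k, φ k ≠ 0 := by
    by_contra hk
    apply hφ0
    refine AddMonoidHom.ext fun k => ?_
    by_contra h0
    exact hk ⟨k, h0⟩
  obtain ⟨k, hk⟩ := hk
  have h1 := DFunLike.congr_fun h k
  rw [AddMonoidHom.smul_apply, AddMonoidHom.smul_apply, smul_eq_mul, smul_eq_mul] at h1
  exact mul_right_cancel₀ hk h1

/-- the diamonds commute with the scalars -/
theorem diaH_smul_complex (θ : (ZMod N)ˣ →* Δ) (d : Gamma0 N) (a : ℂ)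
    (ψ : Additive (GammaH θ) →+ ℂ) : diaH θ ℂ d (a • ψ) = a • diaH θ ℂ d ψ :=
  ChainD.op_smul (diaK embR (chi θ) d) a ψ

/-- **the diamond eigencharacter** of a non-zero simultaneous eigenvector of the diamonds -/
theorem exists_eigenchar (θ : (ZMod N)ˣ →* Δ) (hθ : Function.Surjective θ)
    (φ : Additive (GammaH θ) →+ ℂ) (hφ0 : φ ≠ 0)
    (hdia : ∀ d : Gamma0 N, ∃ c : ℂ, diaH θ ℂ d φ = c • φ) :
    ∃ ε : Δ →* ℂˣ, ∀ d : Gamma0 N, diaH θ ℂ d φ = ((ε (chi θ d) : ℂˣ) : ℂ) • φ := by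
  choose c hc using hdia
  obtain ⟨rep, hrep⟩ := exists_rep θ hθ
  have hcongr : ∀ d d' : Gamma0 N, chi θ d = chi θ d' → c d = c d' := by
    intro d d' h
    refine eq_of_smul_eq_smul_of_ne_zero hφ0 ?_
    rw [← hc d, ← hc d', diaH_congr θ d d' h]
  have hone : c 1 = 1 := by
    refine eq_of_smul_eq_smul_of_ne_zero hφ0 ?_
    rw [← hc 1, one_smul, diaH_of_ker θ 1 (map_one _)]
  have hmul : ∀ d d' : Gamma0 N, c (d' * d) = c d' * c d := by
    intro d d'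
    refine eq_of_smul_eq_smul_of_ne_zero hφ0 ?_
    rw [← hc (d' * d), diaH_mul, hc d', diaH_smul_complex θ, hc d,
      smul_smul]
  let f : Δ →* ℂ :=
    { toFun := fun δ => c (rep δ)
      map_one' := by
        rw [← hone]
        exact hcongr _ _ (by rw [hrep, map_one])
      map_mul' := by
        intro a b
        rw [← hmul]
        exact hcongr _ _ (by rw [hrep, map_mul, hrep, hrep]) }
  refine ⟨f.toHomUnits, fun d => ?_⟩
  rw [hc d]
  congr 1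
  rw [MonoidHom.coe_toHomUnits]
  exact hcongr _ _ (hrep (chi θ d)).symm

/-- **the eigenvalue function** of a simultaneous eigenvector of the `T_ℓ` and the `U_q` -/
theorem exists_mu (θ : (ZMod N)ˣ →* Δ) (φ : Additive (GammaH θ) →+ ℂ)
    (hT : ∀ (ℓ : ℕ) [Fact ℓ.Prime] (hℓ : ¬ ℓ ∣ N), ∃ c : ℂ, TH θ ℂ hℓ φ = c • φ)
    (hU : ∀ (q : ℕ) [NeZero q] (hqN : q ∣ N), q.Prime → ∃ c : ℂ, UH θ ℂ hqN φ = c • φ) :
    ∃ μ : ℕ → ℂ, (∀ (ℓ : ℕ) [Fact ℓ.Prime] (hℓ : ¬ ℓ ∣ N), TH θ ℂ hℓ φ = μ ℓ • φ) ∧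
      (∀ (q : ℕ) [NeZero q] (hqN : q ∣ N), q.Prime → UH θ ℂ hqN φ = μ q • φ) := by
  classical
  have hT' : ∀ ℓ : ℕ, ∃ c : ℂ, ∀ (_ : Fact ℓ.Prime) (hℓ : ¬ ℓ ∣ N), TH θ ℂ hℓ φ = c • φ := by
    intro ℓ
    by_cases h : ℓ.Prime ∧ ¬ ℓ ∣ N
    · haveI : Fact ℓ.Prime := ⟨h.1⟩
      obtain ⟨c, hc⟩ := hT ℓ h.2
      exact ⟨c, fun _ _ => hc⟩
    · exact ⟨0, fun h1 h2 => absurd ⟨h1.out, h2⟩ h⟩
  have hU' : ∀ q : ℕ, ∃ c : ℂ, ∀ (_ : NeZero q) (hqN : q ∣ N), q.Prime →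
      UH θ ℂ hqN φ = c • φ := by
    intro q
    by_cases h : q.Prime ∧ q ∣ N
    · haveI : NeZero q := ⟨h.1.ne_zero⟩
      obtain ⟨c, hc⟩ := hU q h.2 h.1
      exact ⟨c, fun _ _ _ => hc⟩
    · exact ⟨0, fun _ h2 h1 => absurd ⟨h1, h2⟩ h⟩
  choose μT hμT using hT'
  choose μU hμU using hU'
  refine ⟨fun n => if n ∣ N then μU n else μT n, fun ℓ _ hℓ => ?_, fun q _ hqN hq => ?_⟩
  · show TH θ ℂ hℓ φ = (if ℓ ∣ N then μU ℓ else μT ℓ) • φ
    rw [if_neg hℓ]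
    exact hμT ℓ _ hℓ
  · show UH θ ℂ hqN φ = (if q ∣ N then μU q else μT q) • φ
    rw [if_pos hqN]
    exact hμU q _ hqN hq

/-- **B5 from Part A's output** (helper83 `PointDS.exists_eigenclass_of_point`, coerced form):
`φ` a non-zero parabolic class, eigenvector of every diamond, `T_ℓ`, `U_q`, with a diamond
`⟨d⟩`, `χ_θ(d) ∈ θloc r₀ ((ℤ/r₀)ˣ)`, not fixing `φ`.  The newform `g` has `r₀`-exponent `2`, and
`a_ℓ(g)` is the eigenvalue of `⟨ℓ⟩^{-1/2} T_ℓ = diaH dl ∘ TH ℓ` on `φ`. -/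
theorem exists_isNewform_factorization_two_of_eigenclass_exists
    (θ : (ZMod N)ˣ →* Δ) (hθ : Function.Surjective θ) (hodd : Odd (Nat.card Δ))
    (L : List ℕ) (hL : ∀ r ∈ L, r.Prime) (hnd : L.Nodup)
    (hdvd : ∀ r ∈ L, r ∣ N) (hsq : ∀ r ∈ L, ¬ r ^ 2 ∣ N)
    (θloc : (r : ℕ) → (ZMod r)ˣ →* Δ) (pr : ℕ → Δ →* Δ)
    (hpr : ∀ r ∈ L, ∀ (h : r ∣ N) (u : (ZMod N)ˣ), pr r (θ u) = θloc r (ZMod.unitsMap h u))
    (hprod : ∀ u : (ZMod N)ˣ, θ u = (L.map fun r => pr r (θ u)).prod)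
    (r₀ : ℕ) (hr₀ : r₀ ∈ L)
    (φ : Additive (GammaH θ) →+ ℂ) (hφpar : IsParabolicHom (GammaH θ) φ) (hφ0 : φ ≠ 0)
    (hdia : ∀ d : Gamma0 N, ∃ c : ℂ, diaH θ ℂ d φ = c • φ)
    (hne : ∃ d : Gamma0 N, chi θ d ∈ (θloc r₀).range ∧ diaH θ ℂ d φ ≠ φ)
    (hT : ∀ (ℓ : ℕ) [Fact ℓ.Prime] (hℓ : ¬ ℓ ∣ N), ∃ c : ℂ, TH θ ℂ hℓ φ = c • φ)
    (hU : ∀ (q : ℕ) [NeZero q] (hqN : q ∣ N), q.Prime → ∃ c : ℂ, UH θ ℂ hqN φ = c • φ) :
    ∃ M : ℕ, M ∣ N * L.prod ∧ ∃ g : CuspForm (Gamma0 M) 2, g.IsNewform ∧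
      M.factorization r₀ = 2 ∧
      ∀ (ℓ : ℕ) [Fact ℓ.Prime] (hℓ : ¬ ℓ ∣ N), ¬ ℓ ∣ N * L.prod → ∀ (dl : Gamma0 N),
        (∀ u : (ZMod N)ˣ, (u : ZMod N) = (ℓ : ZMod N) → chi θ dl ^ 2 * θ u = 1) →
        ∀ c : ℂ, diaH θ ℂ dl (TH θ ℂ hℓ φ) = c • φ → qCoeff g ℓ = c := by
  obtain ⟨ε, hε⟩ := exists_eigenchar θ hθ φ hφ0 hdia
  obtain ⟨μ, hμT, hμU⟩ := exists_mu θ φ hT hU
  have hε₀ : ε.comp (θloc r₀) ≠ 1 := by
    intro h1
    obtain ⟨d, ⟨v, hv⟩, hd⟩ := hne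
    apply hd
    rw [hε d, ← hv]
    have h2 := DFunLike.congr_fun h1 v
    rw [MonoidHom.comp_apply, MonoidHom.one_apply] at h2
    rw [h2, Units.val_one, one_smul]
  obtain ⟨M, hM, g, hg, hgood, hfac⟩ :=
    exists_isNewform_factorization_two_of_neben θ hθ hodd L hL hnd hdvd hsq θloc pr hpr hprod ε
      r₀ hr₀ hε₀ φ hφpar hφ0 hε μ hμT hμU
  refine ⟨M, hM, g, hg, hfac, ?_⟩
  intro ℓ _ hℓ hℓN' dl hdl c hc
  have hℓp : ℓ.Prime := Fact.out
  have hcop : Nat.Coprime ℓ N := (Nat.Prime.coprime_iff_not_dvd hℓp).mpr hℓ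
  have hu : ((ZMod.unitOfCoprime ℓ hcop : (ZMod N)ˣ) : ZMod N) = (ℓ : ZMod N) :=
    ZMod.coe_unitOfCoprime _ hcop
  have h1 := hgood ℓ hℓp hℓN' _ hu
  have h2 := congrArg (sqrtChar ε) (hdl _ hu)
  rw [map_mul, map_pow, sqrtChar_sq_apply hodd, map_one] at h2
  have h3 : c = μ ℓ * ((ε (chi θ dl) : ℂˣ) : ℂ) := by
    refine eq_of_smul_eq_smul_of_ne_zero hφ0 ?_
    rw [← hc, hμT ℓ hℓ, diaH_smul_complex θ, hε dl, smul_smul]
  have h4 : ((ε (chi θ dl) : ℂˣ) : ℂ)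
      * ((sqrtChar ε (θ (ZMod.unitOfCoprime ℓ hcop)) : ℂˣ) : ℂ) = 1 := by
    rw [← Units.val_mul, h2, Units.val_one]
  rw [h3, ← h1]
  calc qCoeff g ℓ = (((ε (chi θ dl) : ℂˣ) : ℂ)
        * ((sqrtChar ε (θ (ZMod.unitOfCoprime ℓ hcop)) : ℂˣ) : ℂ)) * qCoeff g ℓ := by
        rw [h4, one_mul]
    _ = _ := by ring

end Wrap

end GB.B5.Depl

end Fermat.Agent.GE8.P3B
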